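import Mathlib
import Fermat.Prelude.Def_GaloisRep_DeformationRingData
import Fermat.Prelude.Def_GaloisRep_LocalConditions
import Fermat.Prelude.Def_GaloisRep_StrictOrdinary
import Fermat.Prelude.Def_GaloisRep_Flat
import Fermat.Prelude.Def_GaloisRep_Residual

/-!
# PROJECT T (S56), top seam: unpacking of the frozen statement

The frozen statement S56 is a conjunction of two *halves* (strict-ordinary at `p`, flat at `p`).
Each half has the shape

  `∃ r, ∀ n, ∃ qv : Fin r → ℕ, Injective qv ∧ (TW clauses for every qv i) ∧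
     ∀ DQ : DeformationRingData 𝒪 ρbar (cond (Smin ∪ univ.image qv)), ∃ γ : 𝒪⟦X_1..X_r⟧ ↠ DQ.R`.

This file reduces each half to its **Finset form** (`HalfFinset`): the Taylor–Wiles set is a
`Q : Finset ℕ` with `Q.card = r`, and the deformation condition is indexed by `Q` itself.  All the
dependent-type bookkeeping (`Fin r → ℕ` versus `Finset ℕ`, `Finset.univ.image qv`, the instance
binders of the condition) is done here once; the block `S56/Count` only has to deliver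
`HalfFinset` for `soCond` and for `flCond`.

Mathlib + Prelude only.
-/

set_option autoImplicit false

open Polynomial IsLocalRing

namespace Fermat.Agent.S56.Main.Unpack

/-- the type of a deformation condition (the binder shape of the Prelude's
`DeformationRingData`) -/
abbrev Cond (𝒪 : Type) [CommRing 𝒪] : Type 1 :=
  ∀ ⦃A : Type⦄ [CommRing A] [IsLocalRing A] [Algebra 𝒪 A], GaloisRepAdic A → Prop

/-- the strict-ordinary condition of S56 for the auxiliary set `Q` (a `Finset`) -/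
def soCond (𝒪 : Type) [CommRing 𝒪] (p : ℕ) (Smin Q : Finset ℕ) : Cond 𝒪 :=
  fun _A _ _ _ ρ =>
    GaloisRep.strictOrdinaryCondition 𝒪 p (Smin ∪ Q) ρ ∧
      ∀ q ∈ Smin, q.Prime → q ≠ p → ρ.IsUnipotentOnInertiaAt q

/-- the flat condition of S56 for the auxiliary set `Q` (a `Finset`) -/
def flCond (𝒪 : Type) [CommRing 𝒪] (p : ℕ) (Smin Q : Finset ℕ) : Cond 𝒪 :=
  fun _A _ _ _ ρ =>
    GaloisRep.flatCondition 𝒪 p (Smin ∪ Q) ρ ∧
      ∀ q ∈ Smin, q.Prime → q ≠ p → ρ.IsUnipotentOnInertiaAt q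

variable {k : Type} [Field k]

/-- the literal Taylor–Wiles clauses of S56 for one prime `q` at depth `n` -/
def IsTWPrime (p n : ℕ) (ρbar : ResidualGaloisRep k) (S : Finset ℕ) (q : ℕ) : Prop :=
  (q.Prime ∧ q ∉ S ∧ p ^ (n + 1) ∣ q - 1) ∧
    ∀ P : ValuationSubring (AlgebraicClosure ℚ), P.LiesOverPrime q →
      ∀ φ : AlgebraicClosure ℚ ≃ₐ[ℚ] AlgebraicClosure ℚ, P.IsFrobeniusAt φ q →
        ∃ α β : k, α ≠ β ∧ LinearMap.charpoly (ρbar.ρ φ) = (X - C α) * (X - C β)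

section

variable {𝒪 : Type} [CommRing 𝒪] [IsDomain 𝒪] [IsDiscreteValuationRing 𝒪]
  [IsAdicComplete (maximalIdeal 𝒪) 𝒪]

/-- **one half of S56 in Finset form**: the seam delivered by `S56/Count`. -/
def HalfFinset (p : ℕ) (ρbar : ResidualGaloisRep (ResidueField 𝒪)) (S : Finset ℕ)
    (cond : Finset ℕ → Cond 𝒪) : Prop :=
  ∃ r : ℕ, ∀ n : ℕ, ∃ Q : Finset ℕ, Q.card = r ∧
    (∀ q ∈ Q, IsTWPrime p n ρbar S q) ∧
    ∀ DQ : GaloisRep.DeformationRingData 𝒪 ρbar (cond Q),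
      ∃ γ : MvPowerSeries (Fin r) 𝒪 →ₐ[𝒪] DQ.R, Function.Surjective γ

/-- one half of S56 in the literal `Fin r → ℕ` form of the frozen statement, for an arbitrary
`Finset`-indexed condition -/
def HalfFin (p : ℕ) (ρbar : ResidualGaloisRep (ResidueField 𝒪)) (S : Finset ℕ)
    (cond : Finset ℕ → Cond 𝒪) : Prop :=
  ∃ r : ℕ, ∀ n : ℕ, ∃ qv : Fin r → ℕ, Function.Injective qv ∧
    (∀ i, (qv i).Prime ∧ qv i ∉ S ∧ p ^ (n + 1) ∣ qv i - 1) ∧
    (∀ i, ∀ P : ValuationSubring (AlgebraicClosure ℚ), P.LiesOverPrime (qv i) →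
      ∀ φ : AlgebraicClosure ℚ ≃ₐ[ℚ] AlgebraicClosure ℚ, P.IsFrobeniusAt φ (qv i) →
        ∃ α β : ResidueField 𝒪, α ≠ β ∧
          LinearMap.charpoly (ρbar.ρ φ) = (X - C α) * (X - C β)) ∧
    ∀ DQ : GaloisRep.DeformationRingData 𝒪 ρbar (cond (Finset.univ.image qv)),
      ∃ γ : MvPowerSeries (Fin r) 𝒪 →ₐ[𝒪] DQ.R, Function.Surjective γ

/-- transport of the last clause along an equality of the indexing `Finset` -/
theorem exists_surjective_congr {ρbar : ResidualGaloisRep (ResidueField 𝒪)}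
    (cond : Finset ℕ → Cond 𝒪) {r : ℕ} {Q Q' : Finset ℕ} (hQ : Q' = Q)
    (h : ∀ DQ : GaloisRep.DeformationRingData 𝒪 ρbar (cond Q),
      ∃ γ : MvPowerSeries (Fin r) 𝒪 →ₐ[𝒪] DQ.R, Function.Surjective γ) :
    ∀ DQ : GaloisRep.DeformationRingData 𝒪 ρbar (cond Q'),
      ∃ γ : MvPowerSeries (Fin r) 𝒪 →ₐ[𝒪] DQ.R, Function.Surjective γ := by
  subst hQ
  exact h

/-- **Finset form ⟹ `Fin r → ℕ` form.** -/
theorem halfFin_of_halfFinset {p : ℕ} {ρbar : ResidualGaloisRep (ResidueField 𝒪)}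
    {S : Finset ℕ} {cond : Finset ℕ → Cond 𝒪} (h : HalfFinset p ρbar S cond) :
    HalfFin p ρbar S cond := by
  obtain ⟨r, h⟩ := h
  refine ⟨r, fun n => ?_⟩
  obtain ⟨Q, hcard, hTW, hDQ⟩ := h n
  let e : Fin r ≃ Q := (Q.equivFinOfCardEq hcard).symm
  have himg : Finset.univ.image (fun i : Fin r => ((e i : Q) : ℕ)) = Q := by
    ext x
    simp only [Finset.mem_image, Finset.mem_univ, true_and]
    constructor
    · rintro ⟨i, rfl⟩
      exact (e i).2
    · intro hx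
      exact ⟨e.symm ⟨x, hx⟩, by simp⟩
  refine ⟨fun i => ((e i : Q) : ℕ), ?_, ?_, ?_, ?_⟩
  · intro i j hij
    exact e.injective (Subtype.ext hij)
  · intro i
    exact (hTW _ (e i).2).1
  · intro i
    exact (hTW _ (e i).2).2
  · exact exists_surjective_congr cond himg hDQ

/-- **`HalfFinset` from a count and the tangent-space seam (a6).**  `N Q` stands for the
cardinality of the Selmer set attached to `Q` (`Nat.card (Sel (Smin ∪ Q) ..)` in `S56/Coh`);
`hT6` is the export of `S56/Tan/Main` (`card ≤ (#k)^r ⟹ r` generators), `hCount` the export of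
`S56/Count/Main` (the Taylor–Wiles sets with the Selmer bound). -/
theorem halfFinset_of_count {p : ℕ} {ρbar : ResidualGaloisRep (ResidueField 𝒪)} {S : Finset ℕ}
    {cond : Finset ℕ → Cond 𝒪} (N : Finset ℕ → ℕ)
    (hT6 : ∀ (r : ℕ) (Q : Finset ℕ), N Q ≤ Nat.card (ResidueField 𝒪) ^ r →
      ∀ DQ : GaloisRep.DeformationRingData 𝒪 ρbar (cond Q),
        ∃ γ : MvPowerSeries (Fin r) 𝒪 →ₐ[𝒪] DQ.R, Function.Surjective γ)
    (hCount : ∃ r : ℕ, ∀ n : ℕ, ∃ Q : Finset ℕ, Q.card = r ∧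
      (∀ q ∈ Q, IsTWPrime p n ρbar S q) ∧ N Q ≤ Nat.card (ResidueField 𝒪) ^ r) :
    HalfFinset p ρbar S cond := by
  obtain ⟨r, h⟩ := hCount
  refine ⟨r, fun n => ?_⟩
  obtain ⟨Q, hcard, hTW, hN⟩ := h n
  exact ⟨Q, hcard, hTW, hT6 r Q hN⟩

/-- **The frozen conclusion of S56 from the two halves in Finset form.**  The statement is the
literal conclusion of `ResidualGaloisRep.FermatFrozen.S56` (the hypotheses of S56 are consumed by
the producers of the two `HalfFinset`s). -/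
theorem frozen_of_halves (p : ℕ) (ρbar : ResidualGaloisRep (ResidueField 𝒪)) (S Smin : Finset ℕ)
    (hso : HalfFinset p ρbar S (soCond 𝒪 p Smin))
    (hfl : HalfFinset p ρbar S (flCond 𝒪 p Smin)) :
    (∃ r : ℕ, ∀ n : ℕ, ∃ qv : Fin r → ℕ, Function.Injective qv ∧
      (∀ i, (qv i).Prime ∧ qv i ∉ S ∧ p ^ (n + 1) ∣ qv i - 1) ∧
      (∀ i, ∀ P : ValuationSubring (AlgebraicClosure ℚ), P.LiesOverPrime (qv i) →
        ∀ φ : AlgebraicClosure ℚ ≃ₐ[ℚ] AlgebraicClosure ℚ, P.IsFrobeniusAt φ (qv i) →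
          ∃ α β : ResidueField 𝒪, α ≠ β ∧
            LinearMap.charpoly (ρbar.ρ φ) = (X - C α) * (X - C β)) ∧
      ∀ DQ : GaloisRep.DeformationRingData 𝒪 ρbar (fun _A _ _ _ ρ =>
          GaloisRep.strictOrdinaryCondition 𝒪 p (Smin ∪ Finset.univ.image qv) ρ ∧
            ∀ q ∈ Smin, q.Prime → q ≠ p → ρ.IsUnipotentOnInertiaAt q),
        ∃ γ : MvPowerSeries (Fin r) 𝒪 →ₐ[𝒪] DQ.R, Function.Surjective γ) ∧
    (∃ r : ℕ, ∀ n : ℕ, ∃ qv : Fin r → ℕ, Function.Injective qv ∧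
      (∀ i, (qv i).Prime ∧ qv i ∉ S ∧ p ^ (n + 1) ∣ qv i - 1) ∧
      (∀ i, ∀ P : ValuationSubring (AlgebraicClosure ℚ), P.LiesOverPrime (qv i) →
        ∀ φ : AlgebraicClosure ℚ ≃ₐ[ℚ] AlgebraicClosure ℚ, P.IsFrobeniusAt φ (qv i) →
          ∃ α β : ResidueField 𝒪, α ≠ β ∧
            LinearMap.charpoly (ρbar.ρ φ) = (X - C α) * (X - C β)) ∧
      ∀ DQ : GaloisRep.DeformationRingData 𝒪 ρbar (fun _A _ _ _ ρ =>
          GaloisRep.flatCondition 𝒪 p (Smin ∪ Finset.univ.image qv) ρ ∧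
            ∀ q ∈ Smin, q.Prime → q ≠ p → ρ.IsUnipotentOnInertiaAt q),
        ∃ γ : MvPowerSeries (Fin r) 𝒪 →ₐ[𝒪] DQ.R, Function.Surjective γ) :=
  ⟨halfFin_of_halfFinset hso, halfFin_of_halfFinset hfl⟩

end

end Fermat.Agent.S56.Main.Unpack
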